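/-
Classes fixed by the elements of inertia fixing the roots of unity of order `q`: their normalised
representatives have coefficients in the inertia field with those roots adjoined.
-/
import Fermat.Agent.NewVec.Norm
import Fermat.Agent.GalRep.InertiaBase.Aut

set_option autoImplicit false
set_option linter.style.haveILetI false
set_option linter.unusedSectionVars false

noncomputable section

namespace Fermat.Agent.Auto.Local

open CongruenceSubgroup UpperHalfPlane
open Fermat.Agent.GalRep Fermat.Agent.GalRep.Level Fermat.Agent.ModField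
open Fermat.Agent.GalRep.InertiaBase (rFld mem_rFld_of_mem exists_inertia_eq)
open Fermat.Agent.NewVec
open Fermat.Agent.Galois (GQ)
open scoped MatrixGroups

local notation "Qb" => AlgebraicClosure ℚ

variable {A : ValuationSubring (AlgebraicClosure ℚ)} {M : ℕ} [NeZero M]

/-- An automorphism over the inertia field agrees with inertia on the roots of unity and on any
finite level. -/
theorem exists_inertia_agree (L : IntermediateField ℚ Qb) [FiniteDimensional ℚ L] {s : GQ}
    (hs : ∀ y ∈ inertiaFld A, s y = y) :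
    ∃ σ ∈ A.inertiaSubgroupIn ℚ, σ (zetaQ M) = s (zetaQ M) ∧ ∀ x ∈ L, σ x = s x := by
  haveI : Normal ℚ Qb := IsGalois.to_normal
  haveI : FiniteDimensional ℚ (IntermediateField.adjoin ℚ ({zetaQ M} : Set Qb)) :=
    IntermediateField.adjoin.finiteDimensional (Algebra.IsIntegral.isIntegral (R := ℚ) (zetaQ M))
  let K : IntermediateField ℚ Qb := L ⊔ IntermediateField.adjoin ℚ ({zetaQ M} : Set Qb)
  let L' : IntermediateField ℚ Qb := IntermediateField.normalClosure ℚ K Qb
  haveI : FiniteDimensional ℚ L' := normalClosure.is_finiteDimensional ℚ K Qb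
  haveI : Normal ℚ L' := normalClosure.normal ℚ K Qb
  have hle : K ≤ L' := IntermediateField.le_normalClosure K
  obtain ⟨σ, hσ, h⟩ := exists_inertia_eq A L' hs
  exact ⟨σ, hσ,
    h _ (mem_rFld_of_mem A L' (hle ((le_sup_right : _ ≤ K)
      (IntermediateField.mem_adjoin_simple_self ℚ (zetaQ M))))),
    fun x hx => h x (mem_rFld_of_mem A L' (hle ((le_sup_left : L ≤ K) hx)))⟩

/-- The action on classes and the image of the root of unity are those of an element of inertia. -/
theorem exists_inertia_galG {G : Subgroup SL(2, ℤ)} {M' : ℕ} [NeZero M'] (hG : IsLevel M' G)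
    (n : ℕ) [NeZero n] {s : GQ} (hs : ∀ y ∈ inertiaFld A, s y = y) :
    ∃ σ ∈ A.inertiaSubgroupIn ℚ, σ (zetaQ M) = s (zetaQ M) ∧ galG hG n σ = galG hG n s := by
  obtain ⟨L, hL, hLfix⟩ := galG_continuous (hG := hG) (n := n)
  haveI := hL
  obtain ⟨σ, hσ, hz, hx⟩ := exists_inertia_agree (M := M) L hs
  refine ⟨σ, hσ, hz, ?_⟩
  have h1 : galG hG n (s⁻¹ * σ) = 1 := hLfix _ fun x hxL => by
    show s⁻¹ (σ x) = x
    rw [hx x hxL]
    exact s.symm_apply_apply x
  calc galG hG n σ = galG hG n (s * (s⁻¹ * σ)) := by rw [mul_inv_cancel_left]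
    _ = galG hG n s := by rw [map_mul, h1, mul_one]

/-- An element fixed by the inertia elements fixing the root of unity lies in the base field. -/
theorem mem_oFld_of_fixed {y : Qb}
    (h : ∀ σ ∈ A.inertiaSubgroupIn ℚ, σ (zetaQ M) = zetaQ M → σ y = y) : y ∈ oFld A M := by
  haveI : Normal ℚ Qb := IsGalois.to_normal
  haveI : Normal (inertiaFld A) Qb := Normal.tower_top_of_normal ℚ _ _
  haveI : IsGalois (inertiaFld A) Qb := ⟨⟩
  haveI : FiniteDimensional ℚ (IntermediateField.adjoin ℚ ({y} : Set Qb)) :=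
    IntermediateField.adjoin.finiteDimensional (Algebra.IsIntegral.isIntegral (R := ℚ) y)
  rw [← InfiniteGalois.fixedField_fixingSubgroup (oFld A M), IntermediateField.mem_fixedField_iff]
  intro g hg
  obtain ⟨σ, hσ, hz, hx⟩ := exists_inertia_agree (M := M) (IntermediateField.adjoin ℚ ({y} : Set Qb))
    (s := g.restrictScalars ℚ) fun z hz => g.commutes ⟨z, hz⟩
  have hz' : σ (zetaQ M) = zetaQ M := hz.trans
    ((IntermediateField.mem_fixingSubgroup_iff _ _).mp hg _
      (IntermediateField.mem_adjoin_simple_self (inertiaFld A) (zetaQ M)))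
  exact (hx y (IntermediateField.mem_adjoin_simple_self ℚ y)).symm.trans (h σ hσ hz')

/-- The class is fixed by every inertia element fixing the roots of unity. -/
def FixKer (A : ValuationSubring (AlgebraicClosure ℚ)) (M : ℕ) [NeZero M] {G : Subgroup SL(2, ℤ)}
    (hG : IsLevel M G) {n : ℕ} [NeZero n] (χ : ParG G (ZMod n)) : Prop :=
  ∀ σ ∈ A.inertiaSubgroupIn ℚ, σ (zetaQ M) = zetaQ M → galG hG n σ χ = χ

/-- Coefficients of the normalised series of a class fixed by that part of inertia. -/
theorem normalG_mem_K {G : Subgroup SL(2, ℤ)} (hG : IsLevel M G) {n : ℕ} [NeZero n]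
    {χ : ParG G (ZMod n)} (hfix : FixKer A M hG χ) :
    normalG hG χ ∈ kSer (embO A M).K := by
  refine mem_kSer.mpr fun i => ?_
  obtain ⟨y, hy⟩ := exists_qbarToC_eq (isAlgebraic_normalG hG χ i)
  refine (mem_embO_K A M).mpr ⟨y, mem_oFld_of_fixed fun σ hσ hz => qbarToC.injective ?_, hy⟩
  have h := congrArg (fun F : LaurentSeries ℂ => F.coeff i) (lmap_normalG hG (liftAut σ) χ)
  simp only [← galG_eq_autG, hfix σ hσ hz, lmap_coeff] at h
  change liftAut σ ((normalG hG χ).coeff i) = _ at h
  rw [← hy, liftAut_spec] at h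
  exact h

/-- A class fixed by that part of inertia has a representative bounded over the base. -/
theorem exists_oFld_rep {G : Subgroup SL(2, ℤ)} (hG : IsLevel M G) {n : ℕ} [NeZero n]
    (χ : ParG G (ZMod n)) (hfix : FixKer A M hG χ) :
    ∃ (F : ℍ → ℂ) (hF : IsRepG G n χ F) (f : LaurentSeries ℂ), HasQSeries M F f ∧ f ≠ 0 ∧
      serAlg M (powMF hG hF) = f ^ n ∧ f = normalG hG χ ∧ powMF hG hF ∈ bddMF (embO A M) := by
  obtain ⟨F, hF⟩ := exists_isNormalG_normalG hG χ
  have hser : serAlg M (powMF hG hF.rep) = normalG hG χ ^ n :=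
    (hasQSeries_serHom (powMF hG hF.rep)).unique (NeZero.pos M) (hF.series.pow n)
  exact ⟨F, hF.rep, _, hF.series, hF.ne_zero, hser, rfl,
    bdd_of_kSer _ (by rw [hser]; exact pow_mem (normalG_mem_K hG hfix) _)⟩

end Fermat.Agent.Auto.Local
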