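/-
Translates of classes of a principal congruence subgroup.
-/
import Fermat.Agent.NewVec.Norm
import Fermat.Agent.GalRep.Level.Hecke

set_option autoImplicit false
set_option linter.style.haveILetI false
set_option linter.unusedSectionVars false

noncomputable section

namespace Fermat.Agent.Auto.Local

open CongruenceSubgroup UpperHalfPlane
open Fermat.Agent.GalRep Fermat.Agent.GalRep.Level
open Fermat.Agent.Galois (GQ)
open Fermat.Agent.NewVec
open scoped MatrixGroups

section Translate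

variable {L : ℕ} {B : Type} [AddCommGroup B]

/-- Conjugation of the principal congruence subgroup. -/
def conjN (g : SL(2, ℤ)) : Gamma L →* Gamma L :=
  MonoidHom.mk' (fun γ => ⟨g * γ * g⁻¹, (Gamma_normal L).conj_mem γ γ.2 g⟩)
    fun γ δ => Subtype.ext (by simp [mul_assoc])

theorem coe_conjN (g : SL(2, ℤ)) (γ : Gamma L) : (conjN g γ : SL(2, ℤ)) = g * γ * g⁻¹ := rfl

/-- The translate of a class. -/
def actN (g : SL(2, ℤ)) : ParG (Gamma L) B →+ ParG (Gamma L) B :=
  AddMonoidHom.mk'
    (fun χ => ⟨(χ : Additive (Gamma L) →+ B).comp (conjN g).toAdditive, fun γ hγ => χ.2 _ (by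
      show (((g * γ * g⁻¹ : SL(2, ℤ))) : Matrix (Fin 2) (Fin 2) ℤ).trace ^ 2 = 4
      rwa [Matrix.SpecialLinearGroup.coe_mul, Matrix.trace_mul_comm,
        ← Matrix.SpecialLinearGroup.coe_mul, inv_mul_cancel_left])⟩)
    fun _ _ => Subtype.ext (AddMonoidHom.ext fun _ => rfl)

theorem actN_apply (g : SL(2, ℤ)) (χ : ParG (Gamma L) B) (γ : Gamma L) :
    (actN g χ : Additive (Gamma L) →+ B) (Additive.ofMul γ) =
      (χ : Additive (Gamma L) →+ B) (Additive.ofMul (conjN g γ)) := rfl

theorem actN_mul (g h : SL(2, ℤ)) (χ : ParG (Gamma L) B) :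
    actN (g * h) χ = actN h (actN g χ) := by
  refine Subtype.ext (AddMonoidHom.ext fun z => ?_)
  obtain ⟨γ, rfl⟩ := Additive.ofMul.surjective z
  rw [actN_apply, actN_apply, actN_apply]
  refine congrArg _ (congrArg _ (Subtype.ext ?_))
  simp only [coe_conjN, mul_inv_rev, mul_assoc]

/-- The translate depends on the reduction only. -/
theorem actN_congr {g h : SL(2, ℤ)} (hgh : red L g = red L h) (χ : ParG (Gamma L) B) :
    actN g χ = actN h χ := by
  obtain ⟨t, rfl⟩ : ∃ t : Gamma L, g = (t : SL(2, ℤ)) * h :=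
    ⟨⟨g * h⁻¹, red_eq_one_iff.mp (by rw [map_mul, map_inv, hgh, mul_inv_cancel])⟩,
      (inv_mul_cancel_right g h).symm⟩
  rw [actN_mul]
  refine congrArg (actN h) (Subtype.ext (AddMonoidHom.ext fun z => ?_))
  obtain ⟨γ, rfl⟩ := Additive.ofMul.surjective z
  rw [actN_apply, show conjN (t : SL(2, ℤ)) γ = t * γ * t⁻¹ from Subtype.ext rfl, ofMul_mul,
    ofMul_mul, ofMul_inv, map_add, map_add, map_neg, add_neg_cancel_comm]

variable {M n : ℕ} [NeZero M] [NeZero n]

/-- The translate of a representative. -/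
theorem isRepG_actN {χ : ParG (Gamma L) (ZMod n)} {F : ℍ → ℂ}
    (hF : IsRepG (Gamma L) n χ F) (l : SL(2, ℤ)) :
    IsRepG (Gamma L) n (actN l χ) (fun τ => F (l • τ)) where
  holo := mdifferentiable_comp_smul hF.holo l
  ne_zero h := hF.ne_zero (funext fun τ => by
    have := congrFun h (l⁻¹ • τ)
    simpa using this)
  equivariant γ τ := by
    rw [actN_apply, ← hF.equivariant (conjN l γ) (l • τ)]
    congr 1
    show l • ((γ : SL(2, ℤ)) • τ) = (l * γ * l⁻¹ : SL(2, ℤ)) • (l • τ)
    rw [← mul_smul, ← mul_smul, inv_mul_cancel_right]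
  cusps δ := by
    obtain ⟨w, f, hw, hf⟩ := hF.cusps (l * δ)
    exact ⟨w, f, hw, by simpa only [← mul_smul] using hf⟩

/-- Galois conjugates the translates. -/
theorem galG_actN (hG : IsLevel M (Gamma L)) (s : GQ) {g g' : SL(2, ℤ)}
    (hgg : ConjEq M (cycM M s) g g') (χ : ParG (Gamma L) (ZMod n)) :
    galG hG n s (actN g χ) = actN g' (galG hG n s χ) := by
  have htr : IsTransfer (Gamma L) (Gamma L) (fun _ : Unit => (g : Matrix (Fin 2) (Fin 2) ℤ))
      (χ : Additive (Gamma L) →+ ZMod n) (actN g χ : Additive (Gamma L) →+ ZMod n) := fun γ => by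
    refine ⟨Equiv.refl _, fun _ => conjN g γ, fun _ => ?_, ?_⟩
    · simp only [← Matrix.SpecialLinearGroup.coe_mul]
      exact congrArg _ (inv_mul_cancel_right (g * γ) g).symm
    · rw [Fintype.sum_unique]
      rfl
  have h2 := galG_pull hG hG s hgg htr
  refine Subtype.ext (AddMonoidHom.ext fun z => ?_)
  obtain ⟨γ, rfl⟩ := Additive.ofMul.surjective z
  obtain ⟨e, c, heq, hsum⟩ := h2 γ
  rw [hsum, Fintype.sum_unique, actN_apply]
  refine congrArg _ (congrArg _ (Subtype.ext ?_))
  have h := heq default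
  simp only [← Matrix.SpecialLinearGroup.coe_mul] at h
  show (c default : SL(2, ℤ)) = g' * γ * g'⁻¹
  rw [Subtype.coe_injective h, mul_inv_cancel_right]

end Translate

section Prime

variable (q m : ℕ) [NeZero q] [NeZero m] [Fact (Nat.Coprime q m)] {B : Type} [AddCommGroup B]

/-- The translate by an element of `SL₂(ℤ/q)`, lifted congruent to one modulo `m`. -/
def actQ (x : SL(2, ZMod q)) : ParG (Gamma (q * m)) B →+ ParG (Gamma (q * m)) B :=
  actN (liftQ q m x)

theorem actQ_eq {g : SL(2, ℤ)} {x : SL(2, ZMod q)} (hx : red q g = x) (hg : g ∈ Gamma m)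
    (χ : ParG (Gamma (q * m)) B) : actQ q m x χ = actN g χ := by
  refine actN_congr (red_ext_of_coprime rfl (Fact.out : Nat.Coprime q m) ?_ ?_) χ
  · rw [red_liftQ, hx]
  · exact (red_eq_one_iff.mpr (exists_liftX q m x).choose_spec.2).trans (red_eq_one_iff.mpr hg).symm

theorem actQ_mul (x y : SL(2, ZMod q)) (χ : ParG (Gamma (q * m)) B) :
    actQ q m (x * y) χ = actQ q m y (actQ q m x χ) := by
  have h : ∀ z, liftQ q m z ∈ Gamma m := fun z => (exists_liftX q m z).choose_spec.2
  rw [actQ_eq q m (g := liftQ q m x * liftQ q m y) (by rw [map_mul, red_liftQ, red_liftQ])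
    (mul_mem (h x) (h y)), actN_mul]
  rfl

end Prime

end Fermat.Agent.Auto.Local
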