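/-
A class at level `Γ(q m)` fixed by the inertia elements fixing the roots of unity of order `q`
whose Galois-weighted sums of translates vanish dies on the full level.
-/
import Fermat.Agent.NewVec.Conclude
import Fermat.Agent.Auto.Local.Fixed
import Fermat.Agent.Auto.Local.NormTwist

set_option autoImplicit false
set_option linter.style.haveILetI false
set_option linter.unusedSectionVars false

noncomputable section

namespace Fermat.Agent.Auto.Local

open CongruenceSubgroup IsLocalRing UpperHalfPlane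
open Fermat.Agent.GalRep Fermat.Agent.GalRep.Level Fermat.Agent.ModField
open Fermat.Agent.Galois (GQ)
open Fermat.Agent.GalRep.Model (chartRing self_mem_chartRing)
open Fermat.Agent.NewVec
open scoped MatrixGroups Manifold

/-- Reduction modulo `p ^ k` of classes at level `Γ(q m)`. -/
def lvlRed {q m p : ℕ} [Fact p.Prime] (k : ℕ) :
    ParG (Gamma (q * m)) ℤ_[p] →+ ParG (Gamma (q * m)) (ZMod (p ^ k)) :=
  AddMonoidHom.mk'
    (fun χ => ⟨(PadicInt.toZModPow k).toAddMonoidHom.comp (χ : Additive (Gamma (q * m)) →+ ℤ_[p]),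
      fun γ hγ => by
        show PadicInt.toZModPow k ((χ : Additive (Gamma (q * m)) →+ ℤ_[p]) _) = 0
        rw [χ.2 γ hγ, map_zero]⟩)
    fun _ _ => Subtype.ext (AddMonoidHom.ext fun _ => map_add (PadicInt.toZModPow k) _ _)

theorem lvlRed_apply {q m p : ℕ} [Fact p.Prime] (k : ℕ) (χ : ParG (Gamma (q * m)) ℤ_[p])
    (x : Additive (Gamma (q * m))) :
    (lvlRed k χ : Additive (Gamma (q * m)) →+ ZMod (p ^ k)) x =
      PadicInt.toZModPow k ((χ : Additive (Gamma (q * m)) →+ ℤ_[p]) x) := rfl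

variable {A : ValuationSubring (AlgebraicClosure ℚ)} {q m N M p : ℕ} [NeZero M] [NeZero q]
  [NeZero m] [Fact (Nat.Coprime q m)] [Fact p.Prime]
  (hq : q.Prime) (hA : A.LiesOverPrime q) (hMN : M = q * N) (hqN : ¬ q ∣ N)

local notation "EE" => embO A M

/-- The conjugates over the inertia field of a representative are representatives of the Galois
translates of its class. -/
theorem exists_conj_reps {n : ℕ} [NeZero n] {G : Subgroup SL(2, ℤ)} (hG : IsLevel M G)
    (χ : ParG G (ZMod n)) {F : ℍ → ℂ} (hF : IsRepG G n χ F) (hbd : powMF hG hF ∈ bddMF EE)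
    (hser : serAlg M (powMF hG hF) = normalG hG χ ^ n) :
    ∃ (Fc : (ZMod q)ˣ → ℍ → ℂ)
      (hFc : ∀ a, IsRepG G n (galG hG n (fixAut hq hA hMN hqN a) χ) (Fc a))
      (hbdc : ∀ a, powMF hG (hFc a) ∈ bddMF EE),
      ∀ a, toFld EE ⟨powMF hG (hFc a), hbdc a⟩ =
        conjTor hq hA hMN hqN a (toFld EE ⟨powMF hG hF, hbd⟩) := by
  choose Fc hFc using fun a => exists_isNormalG_normalG hG (galG hG n (fixAut hq hA hMN hqN a) χ)
  have key : ∀ a, serAlg M (powMF hG (hFc a).rep) =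
      toLS EE (conjTor hq hA hMN hqN a (toFld EE ⟨powMF hG hF, hbd⟩)) := fun a => by
    rw [conjTor_apply, toLS_fConj, toLS_toFld]
    refine ((hasQSeries_serHom (powMF hG (hFc a).rep)).unique
      (NeZero.pos M) ((hFc a).series.pow n)).trans ?_
    show _ = lmap _ (serAlg M (powMF hG hF))
    rw [hser, map_pow]
    refine congrArg (· ^ n) ?_
    rw [galG_eq_autG]
    exact (lmap_normalG hG _ χ).symm
  have hbdc : ∀ a, powMF hG (hFc a).rep ∈ bddMF EE := fun a =>
    bdd_of_kSer EE (by rw [key]; exact (EE).sFld_le (toLS_mem EE _))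
  exact ⟨Fc, fun a => (hFc a).rep, hbdc,
    fun a => toLS_injective EE (by rw [toLS_toFld]; exact key a)⟩

variable [IsDiscreteValuationRing (oBase A M)] {π : oBase A M}

set_option maxHeartbeats 2000000 in
open scoped Classical in
include hq hA hMN hqN in
/-- The vanishing, given the regularity at level `M` and the congruences along the special
fibre. -/
theorem eq_zero_of_regular_twist (hπ : Irreducible π) (hqp : q ≠ p) (hmN : m ∣ N)
    [IsAlgClosed (ResidueField (oBase A M))] (hG : IsLevel M (Gamma (q * m)))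
    [∀ k, NeZero (p ^ k)] (u : ParG (Gamma (q * m)) ℤ_[p])
    (hu : ∀ k, FixKer A M hG (lvlRed k u))
    (hvan : ∀ (k : ℕ) (g : SL(2, ZMod q)), ∑ w : ZMod q, ∑ a : (ZMod q)ˣ,
      actQ q m (Level.conjA a g * unip q w)
        (galG hG (p ^ k) (fixAut hq hA hMN hqN a) (lvlRed k u)) = 0)
    (hvert : ∃ r : ℕ, ∀ (k : ℕ) [NeZero (p ^ k)] (F : ℍ → ℂ)
      (hF : IsRepG (Gamma (q * m)) (p ^ k) (lvlRed k u) F),
      powMF hG hF ∈ bddMF EE → ∃ e : ℤ, ∀ (δ : SL(2, ℤ)) (o : ℤ),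
        HasOrd EE π (serAlg M (shift M δ (powMF hG hF))) o →
          (p ^ k : ℤ) ∣ (p ^ r : ℤ) * o - e)
    (hreg₀ : ∀ n : Ideal (chartRing (oBase A M) (jF EE)), n.IsMaximal →
      algebraMap (oBase A M) (chartRing (oBase A M) (jF EE)) π ∈ n →
      ∃ x y, x ∈ n ∧ y ∈ n ∧ ∀ z ∈ n, ∃ s ∉ n, s * z ∈ Ideal.span {x, y})
    (hreg₁ : ∀ n : Ideal (chartRing (oBase A M) (jF EE)⁻¹), n.IsMaximal →
      algebraMap (oBase A M) (chartRing (oBase A M) (jF EE)⁻¹) π ∈ n →
      (⟨(jF EE)⁻¹, self_mem_chartRing _⟩ : chartRing (oBase A M) (jF EE)⁻¹) ∈ n →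
      ∃ x y, x ∈ n ∧ y ∈ n ∧ ∀ z ∈ n, ∃ s ∉ n, s * z ∈ Ideal.span {x, y}) :
    ∀ γ : Gamma (q * m), (γ : SL(2, ℤ)) ∈ Gamma M →
      (u : Additive (Gamma (q * m)) →+ ℤ_[p]) (Additive.ofMul γ) = 0 := by
  have hp : p.Prime := Fact.out
  haveI hpk : ∀ k, NeZero (p ^ k) := fun k => ⟨pow_ne_zero k hp.ne_zero⟩
  haveI := finite_symG hq hA hMN hqN
  haveI : Finite (comps hπ) := finite_comps hπ
  letI : Fintype (comps hπ) := Fintype.ofFinite _
  haveI : Nonempty (comps hπ) := ⟨⟨gaussP EE hπ 1, 1, rfl⟩⟩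
  have hinj := algebraMap_injective EE
  have hS := symmetry hq hA hMN hqN hπ
  have hd : 0 < q * (q - 1) := Nat.mul_pos hq.pos (by have := hq.two_le; omega)
  obtain ⟨D, hD, hexp⟩ := Models.exists_exponent_root (ModField.model EE) π hπ hinj q hq
    (natCast_mem_maximal hq hA hMN hqN) (fun P : comps hπ => P.1) (chartFibre hπ).1 (chartFibre hπ).2
    (symG hq hA hMN hqN) (fixH hq hA hMN hqN hπ) hd hS
  obtain ⟨r, hr⟩ := hvert
  intro γ hγ
  set C := p ^ r * (6 * M) * D with hCdef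
  have hC : C ≠ 0 := mul_ne_zero (mul_ne_zero (pow_ne_zero _ hp.ne_zero)
    (mul_ne_zero (by norm_num) (NeZero.ne M))) hD.ne'
  have key : ∀ k : ℕ, C • PadicInt.toZModPow k
      ((u : Additive (Gamma (q * m)) →+ ℤ_[p]) (Additive.ofMul γ)) = 0 := by
    intro k
    obtain ⟨F, hF, f, hfs, hf0, hser, hfn, hbd⟩ := exists_oFld_rep hG (lvlRed k u) (hu k)
    obtain ⟨Fc, hFc, hbdc, hfc⟩ := exists_conj_reps hq hA hMN hqN hG (lvlRed k u) hF hbd
      (by rw [hser, hfn])
    obtain ⟨e, he⟩ := hr k F hF hbd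
    obtain ⟨f₁, hf₁⟩ : ∃ x, x = toFld EE ⟨powMF hG hF, hbd⟩ := ⟨_, rfl⟩
    have hod₁ : OrdDvd EE (p ^ k) f₁ := by rw [hf₁]; exact OrdDvd.of_rep hG hF hbd
    obtain ⟨j, hje⟩ : ∃ j : ℕ, ((p ^ k : ℕ) : ℤ) ∣ (j : ℤ) + e := by
      refine ⟨((-e) % ((p ^ k : ℕ) : ℤ)).toNat, ?_⟩
      rw [Int.toNat_of_nonneg (Int.emod_nonneg _ (by exact_mod_cast (hpk k).out)), Int.emod_def]
      exact ⟨-((-e) / ((p ^ k : ℕ) : ℤ)), by ring⟩
    obtain ⟨f₂, hf₂⟩ : ∃ x, x = algebraMap (oBase A M) (Fld EE) (π ^ j) * f₁ ^ (p ^ r) := ⟨_, rfl⟩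
    have hπj : π ^ j ≠ 0 := pow_ne_zero _ hπ.ne_zero
    have hod : OrdDvd EE (p ^ k) f₂ := by rw [hf₂]; exact (hod₁.pow _).const_mul hπj
    have hgauss : ∀ (g : SL(2, ℤ)) (o : ℤ), HasOrd EE π (toLS EE (fShift EE g f₂)) o →
        ((p ^ k : ℕ) : ℤ) ∣ o := fun g o ho => by
      obtain ⟨o₁, ho₁⟩ := exists_hasOrd EE hπ (toLS_mem EE (fShift EE g f₁))
        ((map_ne_zero (toLS EE)).mpr ((map_ne_zero (fShift EE g)).mpr hod₁.ne_zero))
      have h1 := ho₁
      rw [hf₁, toLS_fShift_toFld] at h1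
      have h2 := he g o₁ h1
      have h3 : HasOrd EE π (toLS EE (fShift EE g f₂)) ((j : ℤ) + (p ^ r : ℕ) * o₁) := by
        rw [hf₂, map_mul, map_mul, map_pow (fShift EE g), map_pow (toLS EE), fShift_algebraMap,
          toLS_algebraMap, map_pow]
        exact (hasOrd_pi EE hπ j).mul hπ (ho₁.pow hπ _)
      rw [HasOrd.unique hπ ho h3]
      push_cast at hje ⊢
      rw [show (j : ℤ) + (p : ℤ) ^ r * o₁ = ((p : ℤ) ^ r * o₁ - e) + ((j : ℤ) + e) by ring]
      exact dvd_add h2 hje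
    obtain ⟨hr₀, hr₁⟩ := hasRootAt_all EE hπ (NeZero.pos (p ^ k)) hod hgauss hreg₀ hreg₁
    have hnu : IsUnit ((p ^ k : ℕ) : oBase A M) := by
      rw [Nat.cast_pow]
      refine IsUnit.pow _ (notMem_maximalIdeal.mp fun hpm => ?_)
      obtain ⟨a, b, hab⟩ : ∃ a b : ℤ, a * p + b * q = 1 :=
        (Nat.coprime_primes hp hq).mpr (Ne.symm hqp) |>.isCoprime
      have h1 : (1 : oBase A M) ∈ maximalIdeal (oBase A M) := by
        have e1 := congrArg (Int.cast : ℤ → oBase A M) hab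
        push_cast at e1
        rw [← e1]
        exact add_mem (Ideal.mul_mem_left _ _ hpm)
          (Ideal.mul_mem_left _ _ (natCast_mem_maximal hq hA hMN hqN))
      exact (maximalIdeal.isMaximal _).ne_top ((Ideal.eq_top_iff_one _).mpr h1)
    have hm0 : ∀ (m' : Ideal (ModField.model EE).B₀), m'.IsMaximal → m' ≠ ⊥ := fun m' hm' =>
      @ne_bot_of_isMaximal _ _ _ _ _ _ EE (jF EE) m' hm' (aeval_jF_injective EE)
    obtain ⟨c, h, hc0, hh0, hh⟩ := hexp (p ^ k) (NeZero.pos (p ^ k)) hnu (f₂ ^ (6 * M))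
      (pow_ne_zero _ hod.ne_zero) (fun m' hm' => hr₀ m' hm'.isPrime (hm0 m' hm')) hr₁
      fun σ hσ P => by
      obtain ⟨a, b, k', ha, hb, hab⟩ := exists_norm_root_twist hq hA hMN hqN hπ hmN hG
        (fun a => galG hG (p ^ k) (fixAut hq hA hMN hqN a) (lvlRed k u)) Fc hFc hbdc
        (fun a b => by rw [hfc, hfc, map_mul]; rfl) (hvan k) σ hσ P
      rw [hfc 1, map_one] at hab
      change algebraMap _ (Fld EE) b * ∏ h ∈ fixH hq hA hMN hqN hπ P,
        h (σ (toFld EE ⟨powMF hG hF, hbd⟩)) = _ at hab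
      rw [← hf₁] at hab
      -- translates of constants
      have hcst : ∀ h : RingAut (Fld EE), ∃ c' : oBase A M,
          h ∈ fixH hq hA hMN hqN hπ P →
            h (σ (algebraMap (oBase A M) (Fld EE) (π ^ j) ^ (6 * M))) =
              algebraMap (oBase A M) (Fld EE) c' := fun h => by
        by_cases hh : h ∈ fixH hq hA hMN hqN hπ P
        · obtain ⟨c', hc', -⟩ := symG_const hq hA hMN hqN
            (mul_mem (hS.mem P h hh) hσ : h * σ ∈ symG hq hA hMN hqN) ((π ^ j) ^ (6 * M))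
          exact ⟨c', fun _ => by rw [← map_pow]; exact hc'⟩
        · exact ⟨1, fun h' => absurd h' hh⟩
      choose cc hcc using hcst
      refine ⟨(∏ h ∈ fixH hq hA hMN hqN hπ P, cc h) * a ^ (p ^ r * (6 * M)),
        b ^ (p ^ r * (6 * M)), k' ^ (p ^ r * (6 * M)),
        mul_ne_zero (Finset.prod_ne_zero_iff.mpr fun h hh h0 => ?_) (pow_ne_zero _ ha),
        pow_ne_zero _ hb, ?_⟩
      · have h1 := hcc h hh
        rw [h0, map_zero, map_eq_zero, map_eq_zero, pow_eq_zero_iff', map_eq_zero_iff _ hinj] at h1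
        exact hπj h1.1
      · have hsplit : ∀ h ∈ fixH hq hA hMN hqN hπ P, h (σ (f₂ ^ (6 * M))) =
            algebraMap (oBase A M) (Fld EE) (cc h) * (h (σ f₁)) ^ (p ^ r * (6 * M)) := fun h hh => by
          rw [← hcc h hh, hf₂, mul_pow, ← pow_mul, map_mul, map_mul, map_pow σ f₁, map_pow h (σ f₁)]
        rw [Finset.prod_congr rfl hsplit, Finset.prod_mul_distrib, Finset.prod_pow, ← map_prod,
          map_mul, map_pow, map_pow]
        rw [mul_left_comm, ← mul_pow, hab]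
        ring
    have h4 : h ^ (p ^ k) =
        algebraMap (oBase A M) (Fld EE) (c * (π ^ j) ^ (6 * M * D)) * f₁ ^ C := by
      rw [hh, hf₂, map_mul, map_pow _ (π ^ j) (6 * M * D), hCdef]
      ring
    rw [hf₁] at h4
    have h5 := nsmul_apply_eq_zero hG hF hfs hf0 hser hbd hh0 h4 γ hγ
    exact h5
  have h6 : (C : ℤ_[p]) * (u : Additive (Gamma (q * m)) →+ ℤ_[p])
      (Additive.ofMul γ) = 0 := by
    refine PadicInt.ext_of_toZModPow.mp fun k => ?_
    rw [map_mul, map_natCast, map_zero, ← nsmul_eq_mul]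
    exact key k
  exact (mul_eq_zero.mp h6).resolve_left (Nat.cast_ne_zero.mpr hC)

end Fermat.Agent.Auto.Local
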