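/-
A class fixed by the inertia elements at `q` fixing the `q`-th roots of unity, with vanishing
Galois-weighted sums of translates, is zero.
-/
import Fermat.Agent.Auto.Local.Regular

set_option autoImplicit false
set_option linter.style.haveILetI false
set_option linter.unusedSectionVars false

noncomputable section

namespace Fermat.Agent.Auto.Local

open CongruenceSubgroup IsLocalRing UpperHalfPlane
open Fermat.Agent.GalRep Fermat.Agent.GalRep.Level Fermat.Agent.ModField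
open Fermat.Agent.Galois (GQ)
open Fermat.Agent.GalRep.Model (chartRing self_mem_chartRing)
open Fermat.Agent.NewVec
open scoped MatrixGroups

local notation "Qb" => AlgebraicClosure ℚ

variable {A : ValuationSubring (AlgebraicClosure ℚ)} {q m p : ℕ} [NeZero q]
  [NeZero m] [Fact (Nat.Coprime q m)] [Fact p.Prime]

section Vertical

variable {N M : ℕ} [NeZero M] (hq : q.Prime) (hA : A.LiesOverPrime q) (hMN : M = q * N)
  (hqN : ¬ q ∣ N) [IsDiscreteValuationRing (oBase A M)] {π : oBase A M}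

local notation "EE" => embO A M

theorem IsTransfer.lvlRed {ι : Type} [Fintype ι] {β : ι → Matrix (Fin 2) (Fin 2) ℤ}
    {w w' : ParG (Gamma (q * m)) ℤ_[p]}
    (h : IsTransfer (Gamma (q * m)) (Gamma (q * m)) β (w : Additive (Gamma (q * m)) →+ ℤ_[p])
      (w' : Additive (Gamma (q * m)) →+ ℤ_[p])) (k : ℕ) :
    IsTransfer (Gamma (q * m)) (Gamma (q * m)) β
      (Local.lvlRed k w : Additive (Gamma (q * m)) →+ ZMod (p ^ k))
      (Local.lvlRed k w' : Additive (Gamma (q * m)) →+ ZMod (p ^ k)) := fun γ => by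
  obtain ⟨e, g, hg, hs⟩ := h γ
  exact ⟨e, g, hg, by rw [lvlRed_apply, hs, map_sum]; rfl⟩

include hq hA hMN hqN in
/-- The orders along the special fibre, from a class `w` with `T_ℓ w = p ^ r u + (ℓ + 1) w`. -/
theorem exists_vertical_twist (hπ : Irreducible π) [∀ k, NeZero (p ^ k)]
    (hG : IsLevel M (Gamma (q * m))) (u : ParG (Gamma (q * m)) ℤ_[p]) {ℓ : ℕ} (hℓ : ℓ.Prime)
    (hℓM : (ℓ : ZMod M) = 1) (r : ℕ) (w : ParG (Gamma (q * m)) ℤ_[p])
    (hw : ∀ k, FixKer A M hG (lvlRed k w))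
    (hT : IsTransfer (Gamma (q * m)) (Gamma (q * m)) (heckeRepG M ℓ 1)
      (w : Additive (Gamma (q * m)) →+ ℤ_[p])
      ((p ^ r • u + (ℓ + 1) • w : ParG (Gamma (q * m)) ℤ_[p]) : Additive (Gamma (q * m)) →+ ℤ_[p])) :
    ∀ (k : ℕ) [NeZero (p ^ k)] (F : ℍ → ℂ)
      (hF : IsRepG (Gamma (q * m)) (p ^ k) (lvlRed k u) F),
      powMF hG hF ∈ bddMF EE → ∃ e : ℤ, ∀ (δ : SL(2, ℤ)) (o : ℤ),
        HasOrd EE π (serAlg M (shift M δ (powMF hG hF))) o →
          (p ^ k : ℤ) ∣ (p ^ r : ℤ) * o - e := by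
  intro k _ F hF hbd
  haveI : NeZero ℓ := ⟨hℓ.ne_zero⟩
  haveI : Fact (1 < ℓ) := ⟨hℓ.one_lt⟩
  obtain ⟨F', hF', -, -, -, -, -, hbd'⟩ := exists_oFld_rep hG (lvlRed k w) (hw k)
  -- the root of unity of order `ℓ`
  obtain ⟨y, hy⟩ := exists_qbar_zetaC ℓ
  have hqℓ : ¬ q ∣ ℓ := fun hd => by
    obtain rfl := (Nat.prime_dvd_prime_iff_eq hq hℓ).mp hd
    have h1 := congrArg (ZMod.castHom (hMN ▸ dvd_mul_right q N : q ∣ M) (ZMod q)) hℓM
    rw [map_natCast, ZMod.natCast_self, map_one] at h1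
    exact zero_ne_one h1
  have hyℓ : y ^ ℓ = 1 := qbarToC.injective (by
    rw [map_pow, hy, map_one]; exact Level.zetaC_pow ℓ)
  have hyA : ∀ j : ℕ, y ^ j ∈ A := fun j => Galois.integralClosure_le A
    ⟨y ^ j, (IsIntegral.of_pow hℓ.pos (hyℓ ▸ isIntegral_one)).pow j⟩
  let zo : oBase A M := (⟨(⟨y, IntermediateField.algebraMap_mem _
      (⟨y, root_mem_inertiaFld A hq hA hqℓ hyℓ⟩ : inertiaFld A)⟩ : oFld A M),
    show y ∈ A from pow_one y ▸ hyA 1⟩ : oBase A M)
  have hzo : oVal A M zo = y := rfl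
  have hzu : IsUnit zo := by
    refine IsUnit.of_pow_eq_one (n := ℓ) (oVal_injective A M ?_) hℓ.ne_zero
    rw [map_pow, hzo, hyℓ, map_one]
  have hzC : (EE).φ zo = Complex.exp (2 * Real.pi * Complex.I / ℓ) := by
    rw [embO_φ, hzo, hy]; rfl
  obtain ⟨e, he⟩ := order_congr (ℓ := ℓ) EE hπ hG hℓ hℓM hzu hzC (p ^ r)
    (IsTransfer.lvlRed hT k) (by rw [map_add, map_nsmul, map_nsmul]) hF hF' hbd hbd'
  exact ⟨e, fun δ o ho => by simpa using he δ o ho⟩

end Vertical

/-- The class is fixed by every inertia element fixing the `q`-th roots of unity. -/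
def FixKerLvl (A : ValuationSubring (AlgebraicClosure ℚ)) (q m : ℕ) [NeZero q] [NeZero m]
    [∀ k, NeZero (p ^ k)] (u : ParG (Gamma (q * m)) ℤ_[p]) : Prop :=
  ∀ (k : ℕ), ∀ σ ∈ A.inertiaSubgroupIn ℚ, cycM q σ = 1 →
    galG (isLevel_gamma (q * m)) (p ^ k) σ (lvlRed k u) = lvlRed k u

/-- The Galois-weighted sums of translates vanish. -/
def SumTwistZero (A : ValuationSubring (AlgebraicClosure ℚ)) (q m : ℕ) [NeZero q] [NeZero m]
    [Fact (Nat.Coprime q m)] [∀ k, NeZero (p ^ k)] (u : ParG (Gamma (q * m)) ℤ_[p]) : Prop :=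
  ∀ τ : (ZMod q)ˣ → GQ, (∀ a, τ a ∈ A.inertiaSubgroupIn ℚ) → (∀ a, cycM q (τ a) = a) →
    ∀ (k : ℕ) (g : SL(2, ZMod q)), ∑ w : ZMod q, ∑ a : (ZMod q)ˣ,
      actQ q m (Level.conjA a g * unip q w)
        (galG (isLevel_gamma (q * m)) (p ^ k) (τ a) (lvlRed k u)) = 0

theorem cycM_eq_one_of_zetaQ {N M : ℕ} [NeZero M] (hq : q.Prime) (hMN : M = q * N) {σ : GQ}
    (h : σ (zetaQ M) = zetaQ M) : cycM q σ = 1 := by
  haveI : Fact (1 < q) := ⟨hq.one_lt⟩
  refine Level.cycM_eq_of_root σ (isPrimitiveRoot_mu hq hMN) ?_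
  rw [map_pow, h, Units.val_one, ZMod.val_one, pow_one]

set_option maxHeartbeats 1000000 in
/-- Vanishing at level `Γ(q m)`, given the Hecke relations at every auxiliary level. -/
theorem eq_zero_of_fixKer_of_sum_zero (hq : q.Prime) (hA : A.LiesOverPrime q) (hqp : q ≠ p)
    (hqm : ¬ q ∣ m) [∀ k, NeZero (p ^ k)] (u : ParG (Gamma (q * m)) ℤ_[p])
    (hu : FixKerLvl A q m u) (hvan : SumTwistZero A q m u)
    (hhecke : ∀ N : ℕ, ¬ q ∣ N → m ∣ N → ∃ (ℓ : ℕ) (r : ℕ) (w : ParG (Gamma (q * m)) ℤ_[p]),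
      ℓ.Prime ∧ (ℓ : ZMod (q * N)) = 1 ∧ FixKerLvl A q m w ∧
        IsTransfer (Gamma (q * m)) (Gamma (q * m)) (heckeRepG (q * N) ℓ 1)
          (w : Additive (Gamma (q * m)) →+ ℤ_[p])
          ((p ^ r • u + (ℓ + 1) • w : ParG (Gamma (q * m)) ℤ_[p]) :
            Additive (Gamma (q * m)) →+ ℤ_[p])) :
    u = 0 := by
  obtain ⟨hW, hWmax, hWac⟩ := wBase_props A hq hA
  haveI := hW
  haveI := hWac
  have hm0 := NeZero.pos m
  -- everything but regularity
  have core : ∀ (N : ℕ) (hqN : ¬ q ∣ N) (hmN : m ∣ N) [NeZero (q * N)]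
      [IsDiscreteValuationRing (oBase A (q * N))]
      [IsAlgClosed (ResidueField (oBase A (q * N)))] {π : oBase A (q * N)} (_ : Irreducible π),
      (∀ n : Ideal (chartRing (oBase A (q * N)) (jF (embO A (q * N)))), n.IsMaximal →
        algebraMap (oBase A (q * N)) (chartRing (oBase A (q * N)) (jF (embO A (q * N)))) π ∈ n →
        ∃ x y, x ∈ n ∧ y ∈ n ∧ ∀ z ∈ n, ∃ s ∉ n, s * z ∈ Ideal.span {x, y}) →
      (∀ n : Ideal (chartRing (oBase A (q * N)) (jF (embO A (q * N)))⁻¹), n.IsMaximal →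
        algebraMap (oBase A (q * N)) (chartRing (oBase A (q * N)) (jF (embO A (q * N)))⁻¹) π ∈ n →
        (⟨(jF (embO A (q * N)))⁻¹, self_mem_chartRing _⟩ :
          chartRing (oBase A (q * N)) (jF (embO A (q * N)))⁻¹) ∈ n →
        ∃ x y, x ∈ n ∧ y ∈ n ∧ ∀ z ∈ n, ∃ s ∉ n, s * z ∈ Ideal.span {x, y}) →
      u = 0 := by
    intro N hqN hmN _ _ _ π hπ h₀ h₁
    have hG : IsLevel (q * N) (Gamma (q * m)) :=
      (isLevel_gamma (q * m)).of_dvd (Nat.mul_dvd_mul_left q hmN)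
    have hfix : ∀ {x : ParG (Gamma (q * m)) ℤ_[p]}, FixKerLvl A q m x →
        ∀ k, FixKer A (q * N) hG (lvlRed k x) := fun {x} hx k σ hσ hz => by
      rw [galG_congr hG (isLevel_gamma (q * m))]
      exact hx k σ hσ (cycM_eq_one_of_zetaQ hq rfl hz)
    have hv : ∀ (k : ℕ) (g : SL(2, ZMod q)), ∑ w : ZMod q, ∑ a : (ZMod q)ˣ,
        actQ q m (Level.conjA a g * unip q w)
          (galG hG (p ^ k) (fixAut hq hA rfl hqN a) (lvlRed k u)) = 0 := by
      intro k g
      choose τ hτI hτz hτg using fun a => exists_inertia_galG (A := A) (M := q * N)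
        (isLevel_gamma (q * m)) (p ^ k) (fixAut_fix hq hA rfl hqN a)
      have h := hvan τ hτI (fun a => cycM_eq_of_mu hq hA (rfl : q * N = q * N) hqN (by
        rw [map_pow, hτz, ← map_pow, fixAut_mu])) k g
      simp only [hτg] at h
      rw [galG_congr hG (isLevel_gamma (q * m))]
      exact h
    obtain ⟨ℓ, r, w, hℓ, hℓM, hwfix, hT⟩ := hhecke N hqN hmN
    have hkill := eq_zero_of_regular_twist hq hA rfl hqN hπ hqp hmN hG u (hfix hu) hv
      ⟨r, exists_vertical_twist hq hA rfl hqN hπ hG u hℓ hℓM r w (hfix hwfix) hT⟩ h₀ h₁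
    refine Subtype.ext (AddMonoidHom.ext fun z => ?_)
    obtain ⟨γ, rfl⟩ := Additive.ofMul.surjective z
    set i := orderOf (red (q * N) (γ : SL(2, ℤ))) with hi
    have hi0 : 0 < i := orderOf_pos _
    have h0 := hkill (γ ^ i) (red_eq_one_iff.mp (by
      rw [SubgroupClass.coe_pow, map_pow, pow_orderOf_eq_one]))
    rw [ofMul_pow, map_nsmul, nsmul_eq_mul] at h0
    exact (mul_eq_zero.mp h0).resolve_left (Nat.cast_ne_zero.mpr hi0.ne')
  -- an auxiliary level
  rcases hq.eq_two_or_odd' with h2 | ⟨k, hk⟩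
  · subst h2
    have hmodd : Odd m := Nat.odd_iff.mpr (by omega)
    have hN : ¬ 2 ∣ 3 * m := fun h => by omega
    haveI : NeZero (2 * (3 * m)) := ⟨by positivity⟩
    obtain ⟨hO, hOmax, hπ⟩ := oBase_dvr (M := 2 * (3 * m)) hq hA rfl hN
    haveI := hO
    haveI := isAlgClosed_oBase (M := 2 * (3 * m)) hq hA hN
    have h2π : piO hq hA (M := 2 * (3 * m)) rfl hN ∣ (2 : oBase A (2 * (3 * m))) := by
      rw [← Ideal.mem_span_singleton, ← hOmax]
      simpa using natCast_mem_maximal (M := 2 * (3 * m)) hq hA rfl hN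
    refine core (3 * m) hN (dvd_mul_left m 3) hπ (fun n hn hπn => ?_) fun n hn hπn hwn => ?_
    · haveI := hn
      refine Moduli.exists_regular_finite_two (embO A _) (n := 3 * m) (by simpa using hWmax)
        (adjoin_eq_top hq hA rfl hN) (exists_wBase_pow hq hA rfl hN)
        ((show Odd 3 by decide).mul hmodd) (dvd_mul_right 3 m) rfl n ?_
      obtain ⟨s, hs⟩ := h2π
      have e : (2 : chartRing (oBase A (2 * (3 * m))) (jF (embO A (2 * (3 * m))))) =
          algebraMap _ _ (2 : oBase A (2 * (3 * m))) := (map_ofNat _ 2).symm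
      rw [e, hs, map_mul]
      exact Ideal.mul_mem_right _ _ hπn
    · haveI := hn
      refine CuspPt.regularPoint_cusp (q := 2) (m := 3 * m) (embO A _) ⟨hq, rfl, hN, by omega, ?_⟩
        hπ n hπn hwn
      exact natCast_mem_maximal hq hA rfl hN
  · obtain ⟨r, hr3, hrodd, hqr⟩ : ∃ r : ℕ, 3 ≤ r ∧ Odd r ∧ ¬ q ∣ r := by
      by_cases h3 : q = 3
      · exact ⟨5, by norm_num, by decide, by subst h3; decide⟩
      · exact ⟨3, le_rfl, by decide, fun h => h3 ((Nat.prime_dvd_prime_iff_eq hq Nat.prime_three).mp h)⟩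
    obtain ⟨t, m', ⟨i, hi⟩, hm⟩ := Nat.exists_eq_two_pow_mul_odd (NeZero.ne m)
    obtain ⟨j, hj⟩ : Odd (m' * r) := (Odd.mul ⟨i, hi⟩ hrodd)
    have hj0 : 0 < j := by
      have : 3 ≤ m' * r := le_trans hr3 (Nat.le_mul_of_pos_left r (by omega))
      omega
    have hqj : ¬ q ∣ 2 * j + 1 := by
      rw [← hj]
      exact fun h => ((Nat.Prime.dvd_mul hq).mp h).elim
        (fun h => hqm (hm ▸ h.mul_left _)) hqr
    set N := 2 ^ (t + 2) * (m' * r) with hNdef
    have hN : ¬ q ∣ N := fun h => by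
      rcases (Nat.Prime.dvd_mul hq).mp h with h | h
      · have := (Nat.prime_dvd_prime_iff_eq hq Nat.prime_two).mp (hq.dvd_of_dvd_pow h)
        omega
      · exact hqj (hj ▸ h)
    have hmN : m ∣ N := ⟨4 * r, by rw [hNdef, hm, pow_add]; ring⟩
    have hN3 : 3 ≤ N := le_trans (by omega : 3 ≤ m' * r) (Nat.le_mul_of_pos_left _ (by positivity))
    haveI : NeZero (q * N) := ⟨mul_ne_zero hq.ne_zero (by omega)⟩
    obtain ⟨hO, hOmax, hπ⟩ := oBase_dvr (M := q * N) hq hA rfl hN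
    haveI := hO
    haveI := isAlgClosed_oBase (M := q * N) hq hA hN
    have hqπ : piO hq hA (M := q * N) rfl hN ∣ (q : oBase A (q * N)) := by
      rw [← Ideal.mem_span_singleton, ← hOmax]
      exact natCast_mem_maximal hq hA rfl hN
    refine core N hN hmN hπ (fun n hn hπn => ?_) fun n hn hπn hwn => ?_
    · haveI := hn
      refine Moduli.exists_regular_finite (embO A _) (a := t + 2) (j := j) hq (k := k) hk hWmax
        (adjoin_eq_top hq hA rfl hN) (exists_wBase_pow hq hA rfl hN) (by omega) hj0 hqj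
        (by rw [hNdef, hj]; ring) n ?_
      obtain ⟨s, hs⟩ := hqπ
      rw [← map_natCast (algebraMap (oBase A (q * N)) _), hs, map_mul]
      exact Ideal.mul_mem_right _ _ hπn
    · haveI := hn
      exact CuspPt.regularPoint_cusp (q := q) (m := N) (embO A _)
        ⟨hq, rfl, hN, hN3, natCast_mem_maximal hq hA rfl hN⟩ hπ n hπn hwn

end Fermat.Agent.Auto.Local
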